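/-
Existence of Frobenius elements in the absolute Galois group of `ℚ`.

For a valuation subring `A` of an algebraic closure `L` of `ℚ` whose maximal ideal contains the
prime number `ℓ`, there is `σ : L ≃ₐ[ℚ] L` in the decomposition group of `A` acting on the
residue field of `A` by `x ↦ x ^ ℓ` (`Fermat.Agent.S54.exists_isFrobeniusAt`), and such
valuation subrings exist (`Fermat.Agent.S54.exists_liesOverPrime`).
-/
import Mathlib
import Fermat.Prelude.Def_EllipticCurve_FrobeniusTrace

set_option autoImplicit false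

namespace Fermat.Agent.S54

open scoped Pointwise
open Polynomial

section Frob

variable {L : Type*} [Field L]

/-- Integral elements over `ℤ` lie in every valuation subring. -/
lemma mem_valuationSubring_of_isIntegral (V : ValuationSubring L) {x : L}
    (hx : IsIntegral ℤ x) : x ∈ V := by
  have h1 : IsIntegral V x := hx.tower_top
  obtain ⟨y, rfl⟩ := IsIntegrallyClosed.isIntegral_iff.mp h1
  exact y.2

/-- An element lying in every valuation subring is integral over `ℤ`. -/
lemma isIntegral_int_of_forall_mem_valuationSubring (b : L)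
    (h : ∀ V : ValuationSubring L, b ∈ V) : IsIntegral ℤ b := by
  by_contra hb
  have hb' : b ∉ (integralClosure ℤ L).toSubring := hb
  have : IsIntegrallyClosedIn (integralClosure ℤ L).toSubring L :=
    inferInstanceAs (IsIntegrallyClosedIn (integralClosure ℤ L) L)
  obtain ⟨V, -, hV⟩ := Subring.exists_le_valuationSubring_of_isIntegrallyClosedIn hb'
  exact hV (h V)

lemma aeval_int_mem_valuationSubring (V : ValuationSubring L) {x : L} (hx : x ∈ V)
    (p : ℤ[X]) : aeval x p ∈ V := by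
  rw [aeval_eq_sum_range]
  refine V.toSubring.sum_mem fun i _ => ?_
  exact V.toSubring.zsmul_mem (V.toSubring.pow_mem hx i) _

lemma mul_mem_nonunits (A : ValuationSubring L) {a m : L} (ha : a ∈ A)
    (hm : m ∈ A.nonunits) : a * m ∈ A.nonunits := by
  rw [A.mem_nonunits_iff] at hm ⊢
  rw [map_mul]
  have ha' : A.valuation a ≤ 1 := (A.valuation_le_one_iff a).mpr ha
  calc A.valuation a * A.valuation m ≤ 1 * A.valuation m := by gcongr
    _ < 1 := by rwa [one_mul]

lemma one_notMem_nonunits (A : ValuationSubring L) : (1 : L) ∉ A.nonunits := by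
  intro h
  rw [A.mem_nonunits_iff, map_one] at h
  exact lt_irrefl _ h

/-- The coefficients of the iterated `divX`. -/
lemma coeff_iterate_divX (q : ℤ[X]) (r i : ℕ) : (divX^[r] q).coeff i = q.coeff (i + r) := by
  induction r generalizing i with
  | zero => simp
  | succ r ih =>
    rw [Function.iterate_succ_apply', coeff_divX, ih]
    congr 1
    ring

lemma iterate_divX_succ (q : ℤ[X]) (r : ℕ) :
    divX^[r] q = divX^[r+1] q * X + C (q.coeff r) := by
  rw [Function.iterate_succ_apply']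
  have := divX_mul_X_add (divX^[r] q)
  rw [coeff_iterate_divX, zero_add] at this
  exact this.symm

/-- Every element of a valuation subring `A` of residue characteristic `ℓ` which is algebraic
over `ℤ` is a fraction of integral elements with denominator a unit of `A`. -/
lemma exists_integral_denominator [CharZero L] (A : ValuationSubring L) {ℓ : ℕ} (hℓ : ℓ.Prime)
    (hA : (ℓ : L) ∈ A.nonunits) {x : L} (hx : x ∈ A) (hxalg : IsAlgebraic ℤ x) :
    ∃ b : L, IsIntegral ℤ b ∧ b ∉ A.nonunits ∧ IsIntegral ℤ (b * x) := by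
  obtain ⟨p, hp0, hpx⟩ := hxalg
  set q := p.primPart with hq
  have hqx : aeval x q = 0 := by
    have h1 : p = C p.content * q := p.eq_C_content_mul_primPart
    rw [h1, map_mul, aeval_C] at hpx
    rcases mul_eq_zero.mp hpx with h | h
    · exfalso
      have h2 : ((p.content : ℤ) : L) = 0 := by simpa using h
      exact content_eq_zero_iff.not.mpr hp0 (by exact_mod_cast h2)
    · exact h
  have hprim : q.IsPrimitive := p.isPrimitive_primPart
  have hex : ∃ i, ¬ ((ℓ : ℤ) ∣ q.coeff i) := by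
    by_contra hall
    have hall' : ∀ i, (ℓ : ℤ) ∣ q.coeff i := fun i => by
      by_contra hi
      exact hall ⟨i, hi⟩
    have h1 : C (ℓ : ℤ) ∣ q := (C_dvd_iff_dvd_coeff _ _).mpr hall'
    exact (Nat.prime_iff_prime_int.mp hℓ).not_isUnit (hprim _ h1)
  obtain ⟨i₀, hi₀⟩ := hex
  have hi₀n : i₀ ≤ q.natDegree := by
    by_contra hlt
    exact hi₀ (by rw [coeff_eq_zero_of_natDegree_lt (not_le.mp hlt)]; exact dvd_zero _)
  classical
  set r := Nat.findGreatest (fun i => ¬ ((ℓ : ℤ) ∣ q.coeff i)) q.natDegree with hr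
  have hr1 : ¬ ((ℓ : ℤ) ∣ q.coeff r) :=
    Nat.findGreatest_spec (P := fun i => ¬ ((ℓ : ℤ) ∣ q.coeff i)) hi₀n hi₀
  have hr2 : ∀ i, r < i → (ℓ : ℤ) ∣ q.coeff i := by
    intro i hi
    by_cases hin : i ≤ q.natDegree
    · exact not_not.mp
        (Nat.findGreatest_is_greatest (P := fun i => ¬ ((ℓ : ℤ) ∣ q.coeff i)) hi hin)
    · rw [coeff_eq_zero_of_natDegree_lt (not_le.mp hin)]; exact dvd_zero _
  set bseq : ℕ → L := fun k => aeval x (divX^[k] q) with hbseq
  have hrec : ∀ k, bseq k = bseq (k+1) * x + (q.coeff k : L) := by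
    intro k
    simp only [hbseq]
    conv_lhs => rw [iterate_divX_succ q k]
    simp
  have hb0 : bseq 0 = 0 := by simpa [hbseq] using hqx
  have hmemV : ∀ (V : ValuationSubring L) (k : ℕ), bseq k ∈ V := by
    intro V k
    induction k with
    | zero => rw [hb0]; exact V.zero_mem
    | succ k ih =>
      by_cases hxV : x ∈ V
      · exact aeval_int_mem_valuationSubring V hxV _
      · have hx0 : x ≠ 0 := fun h => hxV (h ▸ V.zero_mem)
        have hxinv : x⁻¹ ∈ V := (V.mem_or_inv_mem x).resolve_left hxV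
        have h1 : bseq (k+1) = (bseq k - (q.coeff k : L)) * x⁻¹ := by
          rw [hrec k, add_sub_cancel_right, mul_assoc, mul_inv_cancel₀ hx0, mul_one]
        rw [h1]
        exact V.mul_mem _ _ (V.toSubring.sub_mem ih (intCast_mem V _)) hxinv
  have hint : ∀ k, IsIntegral ℤ (bseq k) := fun k =>
    isIntegral_int_of_forall_mem_valuationSubring _ (fun V => hmemV V k)
  have hintx : ∀ k, IsIntegral ℤ (bseq k * x) := by
    intro k
    cases k with
    | zero => rw [hb0, zero_mul]; exact isIntegral_zero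
    | succ k =>
      have h1 : bseq (k+1) * x = bseq k - (q.coeff k : L) := by rw [hrec k]; ring
      rw [h1]
      exact (hint k).sub (isIntegral_algebraMap (R := ℤ) (x := q.coeff k))
  refine ⟨bseq r, hint r, ?_, hintx r⟩
  have hdiv : C (ℓ : ℤ) ∣ divX^[r+1] q := by
    rw [C_dvd_iff_dvd_coeff]
    intro i
    rw [coeff_iterate_divX]
    exact hr2 _ (by omega)
  obtain ⟨q', hq'⟩ := hdiv
  have h1 : bseq (r+1) * x ∈ A.nonunits := by
    have h2 : bseq (r+1) * x = (aeval x q' * x) * (ℓ : L) := by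
      simp only [hbseq]
      rw [hq', map_mul, aeval_C]
      simp
      ring
    rw [h2]
    exact mul_mem_nonunits A (A.mul_mem _ _ (aeval_int_mem_valuationSubring A hx q') hx) hA
  intro hmem
  have h4 : (q.coeff r : L) ∈ A.nonunits := by
    have h5 : (q.coeff r : L) = bseq r - bseq (r+1) * x := by rw [hrec r]; ring
    rw [h5]
    exact A.nonunits.sub_mem hmem h1
  have hcop : IsCoprime (q.coeff r) (ℓ : ℤ) :=
    (isCoprime_comm).mp ((Nat.prime_iff_prime_int.mp hℓ).coprime_iff_not_dvd.mpr hr1)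
  obtain ⟨u, v, huv⟩ := hcop
  have h5 : (1 : L) ∈ A.nonunits := by
    have h6 : (1 : L) = (u : L) * (q.coeff r : L) + (v : L) * (ℓ : L) := by
      exact_mod_cast congrArg (Int.cast : ℤ → L) huv.symm
    rw [h6]
    exact A.nonunits.add_mem (mul_mem_nonunits A (intCast_mem A u) h4)
      (mul_mem_nonunits A (intCast_mem A v) hA)
  exact one_notMem_nonunits A h5

end Frob

section Frob2

variable {L : Type*} [Field L] [Algebra ℚ L] [IsAlgClosure ℚ L]

/-- The integral closure of `ℤ` in an algebraic closure of `ℚ` has invariants `ℤ` under the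
absolute Galois group. -/
lemma isInvariant_integralClosure :
    Algebra.IsInvariant ℤ (integralClosure ℤ L) (L ≃ₐ[ℚ] L) := by
  have : IsGalois ℚ L := IsAlgClosure.isGalois ℚ L
  refine ⟨fun b hb => ?_⟩
  have h1 : (b : L) ∈ IntermediateField.fixedField
      ((⊥ : IntermediateField ℚ L).fixingSubgroup) := by
    rintro ⟨g, -⟩
    exact congrArg Subtype.val (hb g)
  rw [InfiniteGalois.fixedField_fixingSubgroup, IntermediateField.mem_bot] at h1
  obtain ⟨r, hr⟩ := h1
  have h2 : IsIntegral ℤ r := by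
    have h3 : IsIntegral ℤ (algebraMap ℚ L r) := hr ▸ b.2
    exact (isIntegral_algebraMap_iff (algebraMap ℚ L).injective).mp h3
  obtain ⟨n, hn⟩ := IsIntegrallyClosed.isIntegral_iff.mp h2
  refine ⟨n, Subtype.ext ?_⟩
  rw [← hr, ← hn]
  exact (IsScalarTower.algebraMap_apply ℤ ℚ L n)

/-- Existence of Frobenius elements in the absolute Galois group of `ℚ`, on integral elements:
for a valuation subring `A` of an algebraic closure of `ℚ` of residue characteristic `ℓ`, there
is `σ` with `σ b ≡ b ^ ℓ` modulo the maximal ideal of `A` for all integral `b`. -/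
lemma exists_frobenius_on_integers (A : ValuationSubring L) {ℓ : ℕ} (hℓ : ℓ.Prime)
    (hA : (ℓ : L) ∈ A.nonunits) :
    ∃ σ : L ≃ₐ[ℚ] L, ∀ b : L, IsIntegral ℤ b → σ b - b ^ ℓ ∈ A.nonunits := by
  have : IsGalois ℚ L := IsAlgClosure.isGalois ℚ L
  have : IsAlgClosed L := IsAlgClosure.isAlgClosed ℚ
  have : Algebra.IsInvariant ℤ (integralClosure ℤ L) (L ≃ₐ[ℚ] L) := isInvariant_integralClosure
  let _ : TopologicalSpace (integralClosure ℤ L) := ⊥
  have : DiscreteTopology (integralClosure ℤ L) := ⟨rfl⟩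
  have : ContinuousSMul (L ≃ₐ[ℚ] L) (integralClosure ℤ L) := by
    rw [continuousSMul_iff_stabilizer_isOpen]
    intro b
    convert stabilizer_isOpen_of_isIntegral (K := ℚ) (b : L) using 1
    ext g
    simp only [SetLike.mem_coe, MulAction.mem_stabilizer_iff, Subtype.ext_iff]
    rfl
  let f : integralClosure ℤ L →+* A :=
    { toFun := fun b => ⟨b.1, mem_valuationSubring_of_isIntegral A b.2⟩
      map_one' := rfl
      map_mul' := fun _ _ => rfl
      map_zero' := rfl
      map_add' := fun _ _ => rfl }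
  let Q : Ideal (integralClosure ℤ L) := (IsLocalRing.maximalIdeal A).comap f
  have hQmem : ∀ b : integralClosure ℤ L, b ∈ Q ↔ (b : L) ∈ A.nonunits := fun b => by
    rw [show (b : L) = ((f b : A) : L) from rfl, A.coe_mem_nonunits_iff]
    rfl
  have hQprime : Q.IsPrime := Ideal.comap_isPrime f _
  let P : Ideal ℤ := Ideal.span {(ℓ : ℤ)}
  have : Fact ℓ.Prime := ⟨hℓ⟩
  have hPmax : P.IsMaximal := Int.ideal_span_isMaximal_of_prime ℓ
  have hlies : Q.LiesOver P := by
    refine ⟨hPmax.eq_of_le (Ideal.IsPrime.ne_top inferInstance) ?_⟩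
    rw [Ideal.span_le, Set.singleton_subset_iff]
    change algebraMap ℤ (integralClosure ℤ L) (ℓ : ℤ) ∈ Q
    rw [hQmem]
    simpa using hA
  have hℓQ : ((ℓ : ℕ) : integralClosure ℤ L ⧸ Q) = 0 := by
    rw [← map_natCast (Ideal.Quotient.mk Q), Ideal.Quotient.eq_zero_iff_mem, hQmem]
    simpa using hA
  have : CharP (integralClosure ℤ L ⧸ Q) ℓ := (CharP.charP_iff_prime_eq_zero hℓ).mpr hℓQ
  let frobHom : (integralClosure ℤ L ⧸ Q) →ₐ[ℤ ⧸ P] (integralClosure ℤ L ⧸ Q) :=
    { frobenius (integralClosure ℤ L ⧸ Q) ℓ with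
      commutes' := fun r => by
        obtain ⟨n, rfl⟩ := Ideal.Quotient.mk_surjective r
        simp only [RingHom.toMonoidHom_eq_coe, OneHom.toFun_eq_coe, MonoidHom.toOneHom_coe,
          MonoidHom.coe_coe]
        rw [eq_intCast (Ideal.Quotient.mk P) n, map_intCast, map_intCast] }
  have hbij : Function.Bijective frobHom := by
    refine ⟨frobenius_inj (integralClosure ℤ L ⧸ Q) ℓ, fun y => ?_⟩
    obtain ⟨b, rfl⟩ := Ideal.Quotient.mk_surjective y
    obtain ⟨z, hz⟩ := IsAlgClosed.exists_pow_nat_eq (b : L) hℓ.pos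
    have hzint : IsIntegral ℤ z := IsIntegral.of_pow hℓ.pos (hz ▸ b.2)
    refine ⟨Ideal.Quotient.mk Q ⟨z, hzint⟩, ?_⟩
    change (Ideal.Quotient.mk Q ⟨z, hzint⟩) ^ ℓ = _
    rw [← map_pow]
    congr 1
    exact Subtype.ext hz
  obtain ⟨⟨σ, hσQ⟩, hσ⟩ := Ideal.Quotient.stabilizerHom_surjective_of_profinite
    (G := L ≃ₐ[ℚ] L) P Q (AlgEquiv.ofBijective frobHom hbij)
  refine ⟨σ, fun b hb => ?_⟩
  have h1 := DFunLike.congr_fun hσ (Ideal.Quotient.mk Q ⟨b, hb⟩)
  rw [Ideal.Quotient.stabilizerHom_apply] at h1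
  have h2 : (AlgEquiv.ofBijective frobHom hbij) (Ideal.Quotient.mk Q ⟨b, hb⟩) =
      Ideal.Quotient.mk Q (⟨b, hb⟩ ^ ℓ) := by
    rw [map_pow]; rfl
  rw [h2, Ideal.Quotient.eq, hQmem] at h1
  exact h1

end Frob2

section Frob3

variable {L : Type*} [Field L]

lemma inv_mem_of_notMem_nonunits (A : ValuationSubring L) {y : L} (hy : y ∉ A.nonunits) :
    y⁻¹ ∈ A := by
  by_contra h
  exact hy (A.mem_nonunits_iff_or.mpr (Or.inr h))

lemma pow_mem_nonunits (A : ValuationSubring L) {y : L} (hy : y ∈ A.nonunits) {n : ℕ}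
    (hn : 0 < n) : y ^ n ∈ A.nonunits := by
  obtain ⟨m, rfl⟩ := Nat.exists_eq_succ_of_ne_zero hn.ne'
  rw [pow_succ]
  exact mul_mem_nonunits A (pow_mem (A.nonunits_subset hy) m) hy

variable [Algebra ℚ L] [IsAlgClosure ℚ L]

/-- **Existence of Frobenius elements** in the absolute Galois group of `ℚ`. -/
theorem exists_isFrobeniusAt (A : ValuationSubring L) {ℓ : ℕ} (hℓ : ℓ.Prime)
    (hA : A.LiesOverPrime ℓ) : ∃ σ : L ≃ₐ[ℚ] L, A.IsFrobeniusAt σ ℓ := by
  have hA' : (ℓ : L) ∈ A.nonunits := hA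
  have : CharZero L := charZero_of_injective_algebraMap (algebraMap ℚ L).injective
  have halg : Algebra.IsAlgebraic ℚ L := IsAlgClosure.isAlgebraic
  obtain ⟨σ, key⟩ := exists_frobenius_on_integers A hℓ hA'
  have keyA : ∀ x ∈ A, σ x ∈ A ∧ σ x - x ^ ℓ ∈ A.nonunits := by
    intro x hx
    have hxalg : IsAlgebraic ℤ x :=
      (IsFractionRing.isAlgebraic_iff ℤ ℚ L).mpr (Algebra.IsAlgebraic.isAlgebraic x)
    obtain ⟨b, hb, hbn, hbx⟩ := exists_integral_denominator A hℓ hA' hx hxalg
    have hbA : b ∈ A := mem_valuationSubring_of_isIntegral A hb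
    have hb0 : b ≠ 0 := fun h => hbn (h ▸ A.nonunits.zero_mem)
    have hbinv : b⁻¹ ∈ A := inv_mem_of_notMem_nonunits A hbn
    have h1 := key b hb
    have h2 := key (b * x) hbx
    have hσbn : σ b ∉ A.nonunits := by
      intro h
      have h3 : b ^ ℓ ∈ A.nonunits := by
        have : b ^ ℓ = σ b - (σ b - b ^ ℓ) := by ring
        rw [this]
        exact A.nonunits.sub_mem h h1
      have h4 : (1 : L) ∈ A.nonunits := by
        have : (1 : L) = (b⁻¹) ^ ℓ * b ^ ℓ := by
          rw [← mul_pow, inv_mul_cancel₀ hb0, one_pow]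
        rw [this]
        exact mul_mem_nonunits A (pow_mem hbinv ℓ) h3
      exact one_notMem_nonunits A h4
    have hσb0 : σ b ≠ 0 := fun h => hσbn (h ▸ A.nonunits.zero_mem)
    have hσbinv : (σ b)⁻¹ ∈ A := inv_mem_of_notMem_nonunits A hσbn
    have hσa : σ (b * x) ∈ A := by
      have : σ (b * x) = (σ (b * x) - (b * x) ^ ℓ) + (b * x) ^ ℓ := by ring
      rw [this]
      exact A.add_mem _ _ (A.nonunits_subset h2) (pow_mem (A.mul_mem _ _ hbA hx) ℓ)
    have hσx : σ x = (σ b)⁻¹ * σ (b * x) := by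
      rw [map_mul, ← mul_assoc, inv_mul_cancel₀ hσb0, one_mul]
    refine ⟨hσx ▸ A.mul_mem _ _ hσbinv hσa, ?_⟩
    have h5 : σ x - x ^ ℓ =
        (σ b)⁻¹ * ((σ (b * x) - (b * x) ^ ℓ) - x ^ ℓ * (σ b - b ^ ℓ)) := by
      rw [hσx]
      field_simp
      ring
    rw [h5]
    exact mul_mem_nonunits A hσbinv
      (A.nonunits.sub_mem h2 (mul_mem_nonunits A (pow_mem hx ℓ) h1))
  have hdec : σ ∈ A.decompositionSubgroup ℚ := by
    rw [MulAction.mem_stabilizer_iff]
    ext x
    rw [ValuationSubring.mem_pointwise_smul_iff_inv_smul_mem]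
    constructor
    · intro h
      have := (keyA _ h).1
      rwa [AlgEquiv.smul_def, ← AlgEquiv.mul_apply, mul_inv_cancel, AlgEquiv.one_apply] at this
    · intro hx
      by_contra hnot
      have hy : (σ⁻¹ • x)⁻¹ ∈ A.nonunits := A.inv_mem_nonunits_iff.mpr (Or.inr hnot)
      have h1 := (keyA _ (A.nonunits_subset hy)).2
      have h2 : σ ((σ⁻¹ • x)⁻¹) = x⁻¹ := by
        rw [map_inv₀, AlgEquiv.smul_def, ← AlgEquiv.mul_apply, mul_inv_cancel,
          AlgEquiv.one_apply]
      rw [h2] at h1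
      have h3 : x⁻¹ ∈ A.nonunits := by
        have : x⁻¹ = (x⁻¹ - ((σ⁻¹ • x)⁻¹) ^ ℓ) + ((σ⁻¹ • x)⁻¹) ^ ℓ := by ring
        rw [this]
        exact A.nonunits.add_mem h1 (pow_mem_nonunits A hy hℓ.pos)
      rcases A.inv_mem_nonunits_iff.mp h3 with h | h
      · apply hnot
        rw [h, smul_zero]
        exact A.zero_mem
      · exact h hx
  refine ⟨σ, hdec, fun x => ?_⟩
  obtain ⟨a, rfl⟩ := IsLocalRing.residue_surjective x
  rw [← IsLocalRing.ResidueField.residue_smul, ← map_pow, ← sub_eq_zero, ← map_sub,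
    IsLocalRing.residue_eq_zero_iff, ← A.coe_mem_nonunits_iff]
  exact (keyA a a.2).2

end Frob3

section Exists

variable {L : Type*} [Field L] [CharZero L]

/-- A field of characteristic zero has a valuation subring whose maximal ideal contains a given
prime number. -/
theorem exists_liesOverPrime (L : Type*) [Field L] [CharZero L] {ℓ : ℕ} (hℓ : ℓ.Prime) :
    ∃ A : ValuationSubring L, A.LiesOverPrime ℓ := by
  let R : Subring L := (Int.castRingHom L).range
  let l : R := ⟨(ℓ : L), ⟨(ℓ : ℤ), by simp⟩⟩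
  have hne : Ideal.span {l} ≠ ⊤ := by
    intro h
    rw [Ideal.span_singleton_eq_top] at h
    obtain ⟨⟨y, n, rfl⟩, hy⟩ := isUnit_iff_exists_inv.mp h
    have h1 : ((ℓ : ℤ) : L) * ((n : ℤ) : L) = 1 := by
      have := congrArg Subtype.val hy
      simpa [l] using this
    have h2 : (ℓ : ℤ) * n = 1 := by exact_mod_cast h1
    exact (Nat.prime_iff_prime_int.mp hℓ).not_isUnit (IsUnit.of_mul_eq_one _ h2)
  obtain ⟨A, -, hA⟩ := Ideal.image_subset_nonunits_valuationSubring (Ideal.span {l}) hne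
  exact ⟨A, hA ⟨l, Ideal.subset_span rfl, rfl⟩⟩

end Exists

end Fermat.Agent.S54
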